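import Mathlib

/-! # S17 tools: maximal minors, Cauchy-Binet (T5a-c) -/

set_option autoImplicit false

noncomputable section

namespace Fermat.Agent.S17

open Finset Equiv

/-- All maximal minors of an `n × d` matrix. -/
def minors {R : Type*} [CommRing R] {n d : ℕ} (A : Matrix (Fin n) (Fin d) R) :
    (Fin n ↪o Fin d) → R := fun S => (A.submatrix id S).det

theorem minors_apply {R : Type*} [CommRing R] {n d : ℕ} (A : Matrix (Fin n) (Fin d) R)
    (S : Fin n ↪o Fin d) : minors A S = (A.submatrix id S).det := rfl

/-- Every injective map `Fin n → Fin d` is an order embedding composed with a permutation. -/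
theorem exists_orderEmbedding_comp_perm {n d : ℕ} (p : Fin n → Fin d)
    (hp : Function.Injective p) :
    ∃ (S : Fin n ↪o Fin d) (σ : Perm (Fin n)), p = fun i => S (σ i) := by
  have hmono : StrictMono (p ∘ Tuple.sort p) :=
    (Tuple.monotone_sort p).strictMono_of_injective (hp.comp (Tuple.sort p).injective)
  refine ⟨OrderEmbedding.ofStrictMono _ hmono, (Tuple.sort p)⁻¹, ?_⟩
  funext i
  simp

theorem orderEmbedding_comp_perm_injective {n d : ℕ} :
    Function.Injective (fun x : (Fin n ↪o Fin d) × Perm (Fin n) => fun i => x.1 (x.2 i)) := by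
  rintro ⟨S, σ⟩ ⟨S', σ'⟩ h
  have h' : ∀ i, S (σ i) = S' (σ' i) := fun i => congrFun h i
  have hS : S = S' := by
    apply DFunLike.coe_injective
    rw [← StrictMono.range_inj S.strictMono S'.strictMono]
    ext x
    constructor
    · rintro ⟨i, rfl⟩
      exact ⟨σ' (σ⁻¹ i), by rw [← h']; simp⟩
    · rintro ⟨i, rfl⟩
      exact ⟨σ (σ'⁻¹ i), by rw [h']; simp⟩
  subst hS
  have hσ : σ = σ' := Equiv.ext fun i => S.injective (h' i)
  rw [hσ]

/-- T5a Cauchy-Binet. -/
theorem det_mul_eq_sum_minors {R : Type*} [CommRing R] {n d : ℕ} (A : Matrix (Fin n) (Fin d) R)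
    (B : Matrix (Fin d) (Fin n) R) :
    (A * B).det = ∑ S : Fin n ↪o Fin d, (A.submatrix id S).det * (B.submatrix S id).det := by
  have h1 : (A * B).det
      = ∑ p : Fin n → Fin d, (A.submatrix id p).det * ∏ i, B (p i) i := by
    calc (A * B).det
        = ∑ p : Fin n → Fin d, ∑ σ : Perm (Fin n),
            ((Equiv.Perm.sign σ : ℤ) : R) * ∏ i, A (σ i) (p i) * B (p i) i := by
          simp only [Matrix.det_apply', Matrix.mul_apply, prod_univ_sum, mul_sum,
            Fintype.piFinset_univ]
          rw [Finset.sum_comm]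
      _ = ∑ p : Fin n → Fin d, (A.submatrix id p).det * ∏ i, B (p i) i := by
          refine Finset.sum_congr rfl fun p _ => ?_
          rw [Matrix.det_apply', Finset.sum_mul]
          refine Finset.sum_congr rfl fun σ _ => ?_
          rw [Finset.prod_mul_distrib]
          simp [mul_assoc]
  have h2 : ∑ x : (Fin n ↪o Fin d) × Perm (Fin n),
        (A.submatrix id (fun i => x.1 (x.2 i))).det * ∏ i, B (x.1 (x.2 i)) i
      = ∑ p : Fin n → Fin d, (A.submatrix id p).det * ∏ i, B (p i) i := by
    refine Finset.sum_of_injOn (fun x : (Fin n ↪o Fin d) × Perm (Fin n) => fun i => x.1 (x.2 i))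
      (orderEmbedding_comp_perm_injective.injOn) (fun _ _ => Finset.mem_coe.2 (Finset.mem_univ _))
      ?_ (fun _ _ => rfl)
    intro p _ hp
    have hninj : ¬ Function.Injective p := by
      intro hinj
      obtain ⟨S, σ, rfl⟩ := exists_orderEmbedding_comp_perm p hinj
      exact hp ⟨(S, σ), by simp, rfl⟩
    obtain ⟨i, j, hpij, hij⟩ : ∃ i j, p i = p j ∧ i ≠ j := by
      rw [Function.Injective] at hninj
      push Not at hninj
      exact hninj
    rw [Matrix.det_zero_of_column_eq hij (fun k => by simp [hpij]), zero_mul]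
  rw [h1, ← h2, Fintype.sum_prod_type]
  refine Finset.sum_congr rfl fun S _ => ?_
  rw [Matrix.det_apply' (B.submatrix S id), Finset.mul_sum]
  refine Finset.sum_congr rfl fun σ _ => ?_
  have h3 : (A.submatrix id (fun i => S (σ i))).det
      = ((Equiv.Perm.sign σ : ℤ) : R) * (A.submatrix id S).det := by
    have : A.submatrix id (fun i => S (σ i)) = (A.submatrix id S).submatrix id σ := by
      ext i j; rfl
    rw [this, Matrix.det_permute']
  rw [h3]
  simp only [Matrix.submatrix_apply, id_eq]
  ring

/-- T5b. -/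
theorem minors_mul {R : Type*} [CommRing R] {n d e : ℕ} (A : Matrix (Fin n) (Fin d) R)
    (g : Matrix (Fin d) (Fin e) R) (T : Fin n ↪o Fin e) :
    minors (A * g) T = ∑ S : Fin n ↪o Fin d, minors A S * (g.submatrix S T).det := by
  have h : (A * g).submatrix id T = A * g.submatrix id T := by
    ext i j
    simp [Matrix.mul_apply]
  rw [minors_apply, h, det_mul_eq_sum_minors]
  rfl

/-- T5c. -/
theorem minors_mul_left {R : Type*} [CommRing R] {n d : ℕ} (N : Matrix (Fin n) (Fin n) R)
    (A : Matrix (Fin n) (Fin d) R) : minors (N * A) = N.det • minors A := by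
  funext S
  have h : (N * A).submatrix id S = N * A.submatrix id S := by
    ext i j
    simp [Matrix.mul_apply]
  simp [minors_apply, h, Matrix.det_mul]

end Fermat.Agent.S17
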