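import Mathlib
import Fermat.Agent.S17.Tools.Minors

/-! # S17 tools: normalisation of a full rank matrix at one absolute value (T5f) -/

set_option autoImplicit false

noncomputable section

namespace Fermat.Agent.S17

open Equiv

/-- The determinant of any choice of `n` columns is zero or, up to sign, a maximal minor. -/
theorem det_submatrix_eq_zero_or_sign_mul_minors {R : Type*} [CommRing R] {n d : ℕ}
    (A : Matrix (Fin n) (Fin d) R) (p : Fin n → Fin d) :
    (A.submatrix id p).det = 0 ∨
      ∃ (S : Fin n ↪o Fin d) (σ : Perm (Fin n)),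
        (A.submatrix id p).det = ((Equiv.Perm.sign σ : ℤ) : R) * minors A S := by
  by_cases hp : Function.Injective p
  · right
    obtain ⟨S, σ, rfl⟩ := exists_orderEmbedding_comp_perm p hp
    refine ⟨S, σ, ?_⟩
    have : A.submatrix id (fun i => S (σ i)) = (A.submatrix id S).submatrix id σ := by
      ext i j; rfl
    rw [this, Matrix.det_permute', minors_apply]
  · left
    obtain ⟨i, j, hpij, hij⟩ : ∃ i j, p i = p j ∧ i ≠ j := by
      rw [Function.Injective] at hp
      push Not at hp
      exact hp
    exact Matrix.det_zero_of_column_eq hij (fun k => by simp [hpij])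

theorem abv_sign_mul {K : Type*} [Field K] (v : AbsoluteValue K ℝ) {n : ℕ} (σ : Perm (Fin n))
    (x : K) : v (((Equiv.Perm.sign σ : ℤ) : K) * x) = v x := by
  rcases Int.units_eq_one_or (Equiv.Perm.sign σ) with h | h <;> simp [h]

/-- T5f: normalisation at one absolute value. -/
theorem exists_det_ne_zero_forall_abv_le_one {K : Type*} [Field K] (v : AbsoluteValue K ℝ)
    {n d : ℕ} (A : Matrix (Fin n) (Fin d) K) (hA : minors A ≠ 0) :
    ∃ g : Matrix (Fin n) (Fin n) K, g.det ≠ 0 ∧ ∀ i c, v ((g * A) i c) ≤ 1 := by
  obtain ⟨S1, hS1⟩ : ∃ S, minors A S ≠ 0 := by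
    by_contra hcon
    push Not at hcon
    exact hA (funext hcon)
  have : Nonempty (Fin n ↪o Fin d) := ⟨S1⟩
  obtain ⟨S0, hS0⟩ := Finite.exists_max (fun S => v (minors A S))
  have hpos : 0 < v (minors A S0) := lt_of_lt_of_le (v.pos hS1) (hS0 S1)
  have hdet : (A.submatrix id S0).det ≠ 0 := v.pos_iff.1 hpos
  set M := A.submatrix id S0 with hM
  have hunit : IsUnit M.det := isUnit_iff_ne_zero.2 hdet
  refine ⟨M⁻¹, ?_, ?_⟩
  · intro h0
    have := Matrix.det_nonsing_inv_mul_det M hunit
    rw [h0, zero_mul] at this
    exact zero_ne_one this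
  · intro i c
    have h1 : (M⁻¹ * A) i c = (M.det)⁻¹ * (A.submatrix id (Function.update S0 i c)).det := by
      have hcol : (M⁻¹ * A) i c = (Matrix.mulVec M⁻¹ (fun k => A k c)) i := by
        simp [Matrix.mul_apply, Matrix.mulVec, dotProduct]
      have hupd : M.updateCol i (fun k => A k c) = A.submatrix id (Function.update S0 i c) := by
        ext a b
        by_cases hb : b = i
        · subst hb; simp
        · simp [hb, hM]
      rw [hcol, Matrix.inv_def, Ring.inverse_eq_inv', Matrix.smul_mulVec,
        ← Matrix.cramer_eq_adjugate_mulVec, Pi.smul_apply, Matrix.cramer_apply, hupd, smul_eq_mul]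
    rw [h1, map_mul, map_inv₀]
    have h2 : v (A.submatrix id (Function.update S0 i c)).det ≤ v M.det := by
      rcases det_submatrix_eq_zero_or_sign_mul_minors A (Function.update S0 i c) with h | ⟨S, σ, h⟩
      · rw [h, map_zero]; exact v.nonneg _
      · rw [h, abv_sign_mul]; exact hS0 S
    have hpos' : 0 < v M.det := hpos
    rw [inv_mul_le_iff₀ hpos', mul_one]
    exact h2

end Fermat.Agent.S17
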