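import Mathlib
import Fermat.Agent.S17.Tools.Minors

/-! # S17 tools: a matrix has a nonzero maximal minor iff its rows are independent (T5d) -/

set_option autoImplicit false

noncomputable section

namespace Fermat.Agent.S17

/-- A matrix over a field with independent rows has a right inverse. -/
theorem exists_right_inverse_of_linearIndependent_row {K : Type*} [Field K] {n d : ℕ}
    (A : Matrix (Fin n) (Fin d) K) (hA : LinearIndependent K A.row) :
    ∃ B : Matrix (Fin d) (Fin n) K, A * B = 1 := by
  rw [← Matrix.mulVec_surjective_iff_exists_right_inverse]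
  have hr : A.rank = Fintype.card (Fin n) := hA.rank_matrix
  have htop : LinearMap.range A.mulVecLin = ⊤ := by
    apply Submodule.eq_top_of_finrank_eq
    rw [Module.finrank_fintype_fun_eq_card]
    exact hr
  intro y
  have : y ∈ LinearMap.range A.mulVecLin := htop ▸ Submodule.mem_top
  obtain ⟨x, hx⟩ := this
  exact ⟨x, hx⟩

/-- T5d. -/
theorem minors_ne_zero_iff {K : Type*} [Field K] {n d : ℕ} (A : Matrix (Fin n) (Fin d) K) :
    minors A ≠ 0 ↔ LinearIndependent K A.row := by
  constructor
  · intro h
    obtain ⟨S, hS⟩ : ∃ S, minors A S ≠ 0 := by
      by_contra hcon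
      push Not at hcon
      exact h (funext hcon)
    have h1 : LinearIndependent K (A.submatrix id S).row :=
      Matrix.linearIndependent_rows_of_det_ne_zero hS
    have h2 : (A.submatrix id S).row = (LinearMap.funLeft K K S) ∘ A.row := by
      funext i j
      rfl
    rw [h2] at h1
    exact LinearIndependent.of_comp _ h1
  · intro h hzero
    obtain ⟨B, hB⟩ := exists_right_inverse_of_linearIndependent_row A h
    have h1 := det_mul_eq_sum_minors A B
    rw [hB, Matrix.det_one] at h1
    have h2 : ∑ S : Fin n ↪o Fin d, (A.submatrix id S).det * (B.submatrix S id).det = 0 := by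
      refine Finset.sum_eq_zero fun S _ => ?_
      have : (A.submatrix id S).det = 0 := congrFun hzero S
      rw [this, zero_mul]
    rw [h2] at h1
    exact one_ne_zero h1

end Fermat.Agent.S17
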