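import Mathlib
import Fermat.Agent.S17.Tools.Minors
import Fermat.Agent.S17.Tools.MinorsRank
import Fermat.Agent.S17.Tools.MinorsCramer

/-! # S17 tools: complementary minors (T5e) -/

set_option autoImplicit false

noncomputable section

namespace Fermat.Agent.S17

open Matrix Height

/-- The basic identity behind complementary minors. -/
theorem det_submatrix_inl_eq {R : Type*} [CommRing R] {n r d : ℕ}
    (A : Matrix (Fin n) (Fin d) R) (A' : Matrix (Fin r) (Fin d) R) (B : Matrix (Fin d) (Fin r) R)
    (hAB : A * B = 0) (hA'B : A' * B = 1) (e : Fin n ⊕ Fin r ≃ Fin d) :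
    (A.submatrix id (fun i => e (Sum.inl i))).det =
      ((Matrix.fromRows A A').submatrix id e).det *
        (B.submatrix (fun j => e (Sum.inr j)) id).det := by
  classical
  set I : Matrix (Fin d) (Fin n) R :=
    (1 : Matrix (Fin d) (Fin d) R).submatrix id (fun i => e (Sum.inl i)) with hI
  set Q : Matrix (Fin d) (Fin n ⊕ Fin r) R := Matrix.fromCols I B with hQ
  set G : Matrix (Fin n ⊕ Fin r) (Fin d) R := Matrix.fromRows A A' with hG
  have hAI : A * I = A.submatrix id (fun i => e (Sum.inl i)) := by
    rw [hI, ← Matrix.submatrix_id_id A, Matrix.submatrix_id_id]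
    ext i j
    simp [Matrix.mul_apply, Matrix.one_apply]
  have h1 : (G * Q).det = (A.submatrix id (fun i => e (Sum.inl i))).det := by
    rw [hG, hQ, Matrix.fromRows_mul_fromCols, hAB, hA'B, hAI, Matrix.det_fromBlocks_zero₁₂,
      Matrix.det_one, mul_one]
  have h2 : G * Q = (G.submatrix id e) * (Q.submatrix e id) := by
    rw [Matrix.submatrix_mul_equiv, Matrix.submatrix_id_id]
  have h3 : Q.submatrix e id = Matrix.fromBlocks 1 (B.submatrix (fun i => e (Sum.inl i)) id) 0
      (B.submatrix (fun j => e (Sum.inr j)) id) := by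
    ext a b
    rcases a with a | a <;> rcases b with b | b
    · simp [hQ, hI, Matrix.one_apply]
    · simp [hQ]
    · simp [hQ, hI]
    · simp [hQ]
  rw [← h1, h2, Matrix.det_mul, h3, Matrix.det_fromBlocks_zero₂₁, Matrix.det_one, one_mul]

/-- Two tuples with the same absolute values have the same height. -/
theorem logHeight_eq_of_abv_eq {K : Type*} [Field K] [AdmissibleAbsValues K] {ι : Type*}
    (x y : ι → K) (h0 : x = 0 ↔ y = 0) (h : ∀ (v : AbsoluteValue K ℝ) (i : ι), v (x i) = v (y i)) :
    logHeight x = logHeight y := by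
  rw [logHeight_eq_log_mulHeight, logHeight_eq_log_mulHeight]
  congr 1
  by_cases hx : x = 0
  · have hy : y = 0 := h0.1 hx
    rw [hx, hy]
  · have hy : y ≠ 0 := fun hy => hx (h0.2 hy)
    rw [mulHeight_eq hx, mulHeight_eq hy]
    simp only [h]

/-- The complement, as an equivalence between `n`-subsets and `r`-subsets of the columns. -/
def complEmb {n r d : ℕ} (hd : n + r = d) : (Fin n ↪o Fin d) ≃ (Fin r ↪o Fin d) :=
  Set.powersetCard.ofFinEmbEquiv.trans
    ((Set.powersetCard.compl (α := Fin d) (n := n) (m := r)
      (by rw [Fintype.card_fin]; omega)).trans Set.powersetCard.ofFinEmbEquiv.symm)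

/-- `S` and its complement enumerate all the columns. -/
theorem exists_equiv_complEmb {n r d : ℕ} (hd : n + r = d) (S : Fin n ↪o Fin d) :
    ∃ e : Fin n ⊕ Fin r ≃ Fin d, (∀ i, e (Sum.inl i) = S i) ∧
      ∀ j, e (Sum.inr j) = complEmb hd S j := by
  classical
  set s := Set.powersetCard.ofFinEmbEquiv S with hs
  have hm : s.val.card = n := s.prop
  have hn : (s.val)ᶜ.card = r := by
    rw [Finset.card_compl, hm, Fintype.card_fin]; omega
  refine ⟨finSumEquivOfFinset hm hn, ?_, ?_⟩
  · intro i
    rw [finSumEquivOfFinset_inl]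
    have : Set.powersetCard.ofFinEmbEquiv.symm s = S := by rw [hs, Equiv.symm_apply_apply]
    rw [Set.powersetCard.ofFinEmbEquiv_symm_apply] at this
    exact congrArg (fun f : Fin n ↪o Fin d => f i) this
  · intro j
    rw [finSumEquivOfFinset_inr]
    rfl

/-- Complementary minors: `minors A S = c * ± minors Bᵀ (complement of S)`. -/
theorem exists_minors_eq_mul_sign_mul_minors_compl {K : Type*} [Field K]
    {n r d : ℕ} (hd : n + r = d) (A : Matrix (Fin n) (Fin d) K) (B : Matrix (Fin d) (Fin r) K)
    (hAB : A * B = 0) (hA : LinearIndependent K A.row) (hB : LinearIndependent K B.col) :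
    ∃ (c : K) (ε : (Fin n ↪o Fin d) → ℤˣ), c ≠ 0 ∧
      ∀ S, minors A S = c * (((ε S : ℤ) : K) * minors B.transpose (complEmb hd S)) := by
  classical
  obtain ⟨C, hC⟩ := exists_right_inverse_of_linearIndependent_row B.transpose
    (by simpa using hB)
  have hA'B : C.transpose * B = 1 := by
    have := congrArg Matrix.transpose hC
    simpa [Matrix.transpose_mul] using this
  choose e he1 he2 using exists_equiv_complEmb hd
  let e0 : Fin n ⊕ Fin r ≃ Fin d := finSumFinEquiv.trans (finCongr hd)
  set G := Matrix.fromRows A C.transpose with hG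
  have hkey : ∀ S, minors A S = (G.submatrix id e0).det *
      (((Equiv.Perm.sign ((e S).trans e0.symm) : ℤ) : K) *
        minors B.transpose (complEmb hd S)) := by
    intro S
    have h1 := det_submatrix_inl_eq A C.transpose B hAB hA'B (e S)
    have h2 : (fun i => e S (Sum.inl i)) = S := funext (he1 S)
    have h3 : (fun j => e S (Sum.inr j)) = complEmb hd S := funext (he2 S)
    rw [h2, h3] at h1
    have h4 : G.submatrix id (e S) = (G.submatrix id e0).submatrix id ((e S).trans e0.symm) := by
      ext a b
      simp
    have h5 : minors B.transpose (complEmb hd S) = (B.submatrix (complEmb hd S) id).det := by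
      rw [minors_apply, ← Matrix.det_transpose]
      rfl
    rw [minors_apply, h1, h4, Matrix.det_permute', h5]
    ring
  refine ⟨(G.submatrix id e0).det, fun S => Equiv.Perm.sign ((e S).trans e0.symm), ?_, hkey⟩
  intro h0
  apply (minors_ne_zero_iff A).2 hA
  funext S
  rw [hkey S, h0, zero_mul]
  rfl

/-- T5e: complementary minors, height form. -/
theorem logHeight_minors_eq_of_mul_eq_zero {K : Type*} [Field K] [AdmissibleAbsValues K]
    {n r d : ℕ} (hd : n + r = d) (A : Matrix (Fin n) (Fin d) K) (B : Matrix (Fin d) (Fin r) K)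
    (hAB : A * B = 0) (hA : LinearIndependent K A.row) (hB : LinearIndependent K B.col) :
    logHeight (minors A) = logHeight (minors B.transpose) := by
  obtain ⟨c, ε, hc, h⟩ := exists_minors_eq_mul_sign_mul_minors_compl hd A B hAB hA hB
  have hε : ∀ S, ((ε S : ℤ) : K) ≠ 0 := by
    intro S
    rcases Int.units_eq_one_or (ε S) with h | h <;> simp [h]
  have h1 : minors A
      = c • (fun S => ((ε S : ℤ) : K) * minors B.transpose (complEmb hd S)) := by
    funext S
    rw [h S]
    rfl
  rw [h1, logHeight_smul_eq_logHeight _ hc, ← logHeight_comp_equiv (complEmb hd)]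
  apply logHeight_eq_of_abv_eq
  · constructor
    · intro h0
      funext S
      have := congrFun h0 S
      simp only [Pi.zero_apply, mul_eq_zero] at this
      rcases this with h | h
      · exact absurd h (hε S)
      · exact h
    · intro h0
      funext S
      have := congrFun h0 S
      simp only [Function.comp_apply, Pi.zero_apply] at this
      simp [this]
  · intro v S
    rcases Int.units_eq_one_or (ε S) with h | h <;> simp [h]

end Fermat.Agent.S17
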