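import Fermat.Agent.S17.Tools.QuasiAdd

/-! # S17 tools, Q1+Q2: a function with bounded third difference is quadratic + additive + O(1) -/

set_option autoImplicit false

noncomputable section

namespace Fermat.Agent.S17

open Filter Topology

/-- third difference -/
def cubeDefect {G : Type*} [AddCommGroup G] (X : G → ℝ) (x y z : G) : ℝ :=
  X (x + y + z) - X (x + y) - X (x + z) - X (y + z) + X x + X y + X z

/-- Tate's limit argument for the parallelogram law. -/
theorem QuasiQuad.exists_parallelogram {G : Type*} [AddCommGroup G] (h : G → ℝ) (C : ℝ)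
    (hpar : ∀ x y, |h (x + y) + h (x - y) - 2 * h x - 2 * h y| ≤ C) :
    ∃ q : G → ℝ, (∀ x y, q (x + y) + q (x - y) = 2 * q x + 2 * q y) ∧ ∀ x, |h x - q x| ≤ C := by
  have hC : 0 ≤ C := (abs_nonneg _).trans (hpar 0 0)
  have h0 : |h 0| ≤ C / 2 := by
    have := hpar 0 0
    rw [add_zero, sub_zero, abs_le] at this
    rw [abs_le]
    constructor <;> linarith [this.1, this.2]
  have h2 : ∀ z, |h (z + z) - 4 * h z| ≤ 3 * C / 2 := by
    intro z
    have := hpar z z
    rw [sub_self, abs_le] at this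
    rw [abs_le] at h0 ⊢
    constructor <;> linarith [this.1, this.2, h0.1, h0.2]
  let a : G → ℕ → ℝ := fun x k => h (2 ^ k • x) / 4 ^ k
  have hstep : ∀ x k, dist (a x k) (a x (k + 1)) ≤ C / 2 / 2 ^ k := by
    intro x k
    have hz := h2 (2 ^ k • x)
    have e : (2 ^ (k + 1) : ℕ) • x = 2 ^ k • x + 2 ^ k • x := by
      rw [pow_succ, mul_comm, mul_smul, two_smul]
    simp only [a]
    rw [e, Real.dist_eq, abs_sub_comm]
    have e2 : h (2 ^ k • x + 2 ^ k • x) / 4 ^ (k + 1) - h (2 ^ k • x) / 4 ^ k =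
        (h (2 ^ k • x + 2 ^ k • x) - 4 * h (2 ^ k • x)) / (4 * 4 ^ k) := by
      rw [pow_succ]
      field_simp
    rw [e2, abs_div, abs_of_pos (by positivity : (0 : ℝ) < 4 * 4 ^ k)]
    have h24 : (2 : ℝ) ^ k ≤ 4 ^ k := pow_le_pow_left₀ (by norm_num) (by norm_num) k
    have hp2 : (0 : ℝ) < 2 ^ k := by positivity
    calc |h (2 ^ k • x + 2 ^ k • x) - 4 * h (2 ^ k • x)| / (4 * 4 ^ k)
        ≤ (3 * C / 2) / (4 * 4 ^ k) := div_le_div_of_nonneg_right hz (by positivity)
      _ ≤ (3 * C / 2) / (4 * 2 ^ k) :=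
          div_le_div_of_nonneg_left (by positivity) (by positivity) (by linarith)
      _ ≤ C / 2 / 2 ^ k := by
          rw [div_div, div_div, div_le_div_iff₀ (by positivity) (by positivity)]
          nlinarith [mul_nonneg hC hp2.le]
  have hc : ∀ x, CauchySeq (a x) := fun x => cauchySeq_of_le_geometric_two (hstep x)
  choose q hq using fun x => cauchySeq_tendsto_of_complete (hc x)
  refine ⟨q, fun x y => ?_, fun x => ?_⟩
  · have h1 : Tendsto (fun k => a (x + y) k + a (x - y) k - 2 * a x k - 2 * a y k) atTop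
        (𝓝 (q (x + y) + q (x - y) - 2 * q x - 2 * q y)) :=
      (((hq (x + y)).add (hq (x - y))).sub ((hq x).const_mul 2)).sub ((hq y).const_mul 2)
    have h2' : Tendsto (fun k => a (x + y) k + a (x - y) k - 2 * a x k - 2 * a y k) atTop
        (𝓝 0) := by
      apply squeeze_zero_norm (a := fun k : ℕ => C / 4 ^ k)
      · intro k
        have hh := hpar (2 ^ k • x) (2 ^ k • y)
        simp only [a]
        rw [smul_add, smul_sub, Real.norm_eq_abs]
        have e3 : h (2 ^ k • x + 2 ^ k • y) / 4 ^ k + h (2 ^ k • x - 2 ^ k • y) / 4 ^ k -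
            2 * (h (2 ^ k • x) / 4 ^ k) - 2 * (h (2 ^ k • y) / 4 ^ k) =
            (h (2 ^ k • x + 2 ^ k • y) + h (2 ^ k • x - 2 ^ k • y) - 2 * h (2 ^ k • x) -
              2 * h (2 ^ k • y)) / 4 ^ k := by
          ring
        rw [e3, abs_div, abs_of_pos (by positivity : (0 : ℝ) < 4 ^ k)]
        exact div_le_div_of_nonneg_right hh (by positivity)
      · have : Tendsto (fun k : ℕ => C * (1 / 4 : ℝ) ^ k) atTop (𝓝 (C * 0)) :=
          (tendsto_pow_atTop_nhds_zero_of_lt_one (by norm_num) (by norm_num)).const_mul C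
        rw [mul_zero] at this
        refine this.congr fun k => ?_
        rw [one_div, inv_pow, div_eq_mul_inv]
    have := tendsto_nhds_unique h1 h2'
    linarith
  · have h0' := dist_le_of_le_geometric_two_of_tendsto₀ (hstep x) (hq x)
    simpa [a, Real.dist_eq] using h0'

theorem QuasiQuad.abs_zero_le {G : Type*} [AddCommGroup G] (X : G → ℝ) (C : ℝ)
    (hX : ∀ x y z, |cubeDefect X x y z| ≤ C) : |X 0| ≤ C := by
  have := hX 0 0 0
  unfold cubeDefect at this
  simp only [add_zero] at this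
  have e : X 0 - X 0 - X 0 - X 0 + X 0 + X 0 + X 0 = X 0 := by ring
  rwa [e] at this

theorem QuasiQuad.aux_P {G : Type*} [AddCommGroup G] (X : G → ℝ) (C : ℝ)
    (hX : ∀ x y z, |cubeDefect X x y z| ≤ C) (x y : G) :
    |X (x + y) + X (x - y) - 2 * X x - (X y + X (-y))| ≤ 2 * C := by
  have hX0 := QuasiQuad.abs_zero_le X C hX
  have h := hX x y (-y)
  unfold cubeDefect at h
  rw [add_neg_cancel_right, add_neg_cancel, ← sub_eq_add_neg] at h
  rw [abs_le] at h hX0 ⊢
  constructor <;> linarith [h.1, h.2, hX0.1, hX0.2]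

theorem QuasiQuad.aux_P' {G : Type*} [AddCommGroup G] (X : G → ℝ) (C : ℝ)
    (hX : ∀ x y z, |cubeDefect X x y z| ≤ C) (x y : G) :
    |X (-(x + y)) + X (-(x - y)) - 2 * X (-x) - (X y + X (-y))| ≤ 2 * C := by
  have h := QuasiQuad.aux_P X C hX (-x) (-y)
  have e1 : -x + -y = -(x + y) := by abel
  have e2 : -x - -y = -(x - y) := by abel
  rw [e1, e2, neg_neg] at h
  rw [abs_le] at h ⊢
  constructor <;> linarith [h.1, h.2]

theorem QuasiQuad.aux_par {G : Type*} [AddCommGroup G] (X : G → ℝ) (C : ℝ)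
    (hX : ∀ x y z, |cubeDefect X x y z| ≤ C) (x y : G) :
    |(X (x + y) + X (-(x + y))) + (X (x - y) + X (-(x - y))) - 2 * (X x + X (-x))
      - 2 * (X y + X (-y))| ≤ 4 * C := by
  have h1 := QuasiQuad.aux_P X C hX x y
  have h2 := QuasiQuad.aux_P' X C hX x y
  rw [abs_le] at h1 h2 ⊢
  constructor <;> linarith [h1.1, h1.2, h2.1, h2.2]

theorem QuasiQuad.aux_J {G : Type*} [AddCommGroup G] (X : G → ℝ) (C : ℝ)
    (hX : ∀ x y z, |cubeDefect X x y z| ≤ C) (x y : G) :
    |(X (x + y) - X (-(x + y))) + (X (x - y) - X (-(x - y))) - 2 * (X x - X (-x))| ≤ 4 * C := by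
  have h1 := QuasiQuad.aux_P X C hX x y
  have h2 := QuasiQuad.aux_P' X C hX x y
  rw [abs_le] at h1 h2 ⊢
  constructor <;> linarith [h1.1, h1.2, h2.1, h2.2]

theorem QuasiQuad.aux_odd {G : Type*} [AddCommGroup G] (X : G → ℝ) (C : ℝ)
    (hX : ∀ x y z, |cubeDefect X x y z| ≤ C) (x y : G) :
    |(X (x + y) - X (-(x + y))) - (X x - X (-x)) - (X y - X (-y))| ≤ 4 * C := by
  have h1 := QuasiQuad.aux_J X C hX x y
  have h2 := QuasiQuad.aux_J X C hX y x
  have e1 : y + x = x + y := add_comm y x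
  have e2 : -(y - x) = x - y := by abel
  rw [e1, e2] at h2
  have e3 : y - x = -(x - y) := by abel
  rw [e3] at h2
  rw [abs_le] at h1 h2 ⊢
  constructor <;> linarith [h1.1, h1.2, h2.1, h2.2]

/-- Q1+Q2 (file Tools/QuasiQuad.lean). -/
theorem exists_quadratic_add_additive {G : Type*} [AddCommGroup G] (X : G → ℝ) (C : ℝ)
    (hX : ∀ x y z, |cubeDefect X x y z| ≤ C) :
    ∃ (q : G → ℝ) (lam : G →+ ℝ) (C' : ℝ),
      (∀ x y, q (x + y) + q (x - y) = 2 * q x + 2 * q y) ∧ ∀ x, |X x - (q x + lam x)| ≤ C' := by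
  obtain ⟨q0, hq0, hq0'⟩ := QuasiQuad.exists_parallelogram (fun x => X x + X (-x)) (4 * C)
    (fun x y => QuasiQuad.aux_par X C hX x y)
  obtain ⟨lam0, hlam0⟩ := exists_additive_of_quasi (fun x => X x - X (-x)) (4 * C)
    (fun x y => QuasiQuad.aux_odd X C hX x y)
  refine ⟨fun x => q0 x / 2, (AddMonoidHom.mulLeft (1 / 2 : ℝ)).comp lam0, 4 * C, fun x y => ?_,
    fun x => ?_⟩
  · have := hq0 x y
    show q0 (x + y) / 2 + q0 (x - y) / 2 = 2 * (q0 x / 2) + 2 * (q0 y / 2)
    linarith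
  · have h1 : |X x + X (-x) - q0 x| ≤ 4 * C := hq0' x
    have h2 : |X x - X (-x) - lam0 x| ≤ 4 * C := hlam0 x
    show |X x - (q0 x / 2 + 1 / 2 * lam0 x)| ≤ 4 * C
    rw [abs_le] at h1 h2 ⊢
    constructor <;> linarith [h1.1, h1.2, h2.1, h2.2]

end Fermat.Agent.S17

end
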