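import Mathlib

/-! # S17 tools, Q3: abstract Northcott argument for an exact quadratic function -/

set_option autoImplicit false

noncomputable section

namespace Fermat.Agent.S17

namespace AbstractNorthcott

variable {G : Type*} [AddCommGroup G] (q : G → ℝ)
  (hq : ∀ x y, q (x + y) + q (x - y) = 2 * q x + 2 * q y)

include hq

theorem q_zero : q 0 = 0 := by
  have := hq 0 0
  rw [add_zero, sub_zero] at this
  linarith

theorem q_neg (z : G) : q (-z) = q z := by
  have := hq 0 z
  rw [zero_add, zero_sub, q_zero q hq] at this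
  linarith

/-- `k ↦ q (k x + z)` is a quadratic polynomial. -/
theorem q_nsmul_add (x z : G) (k : ℕ) :
    q (k • x + z) = (k : ℝ) ^ 2 * q x + k * (q (x + z) - q x - q z) + q z := by
  induction k using Nat.twoStepInduction with
  | zero => simp
  | one => simp; ring
  | more k ih0 ih1 =>
    have h := hq ((k + 1) • x + z) x
    have e1 : (k + 1) • x + z + x = (k + 2) • x + z := by
      rw [add_smul, add_smul, one_smul, two_smul]; abel
    have e2 : (k + 1) • x + z - x = k • x + z := by
      rw [add_smul, one_smul]; abel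
    rw [e1, e2, ih0, ih1] at h
    push_cast at h ⊢
    linarith

theorem q_add_le (hnn : ∀ x, 0 ≤ q x) (x z : G) : q (x + z) ≤ 3 / 2 * q x + 3 * q z := by
  have h1 := q_nsmul_add q hq (-z) x 2
  have h2 := hnn (2 • (-z) + x)
  have h3 := hq x z
  have e : -z + x = x - z := by abel
  rw [q_neg q hq, e] at h1
  push_cast at h1
  linarith

end AbstractNorthcott

open AbstractNorthcott in
/-- Q3 (file Tools/AbstractNorthcott.lean). -/
theorem nonneg_and_le_of_translates {G : Type*} [AddCommGroup G] (q : G → ℝ) (mu : G →+ ℝ)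
    (u : G → ℝ) (Z : Finset G) (C : ℝ)
    (hq : ∀ x y, q (x + y) + q (x - y) = 2 * q x + 2 * q y) (hu : ∀ x, 0 ≤ u x)
    (h : ∀ x, ∃ z ∈ Z, u x - C ≤ q (x + z) + mu (x + z)) :
    (∀ x, 0 ≤ q x) ∧ ∃ C', ∀ x, u x ≤ 3 * q x + C' := by
  have hnn : ∀ x, 0 ≤ q x := by
    intro x
    by_contra hneg
    rw [not_le] at hneg
    set M1 : ℝ := ∑ z ∈ Z, |q (x + z) - q x - q z| + |mu x| with hM1
    set M2 : ℝ := ∑ z ∈ Z, |q z + mu z| with hM2
    set D : ℝ := |M2 + C| + 1 with hD
    have hM1nn : 0 ≤ M1 := by positivity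
    have hDpos : 0 < D := by positivity
    have key : ∀ k : ℕ, -C ≤ (k : ℝ) ^ 2 * q x + k * M1 + M2 := by
      intro k
      obtain ⟨z, hz, hzk⟩ := h (k • x)
      rw [q_nsmul_add q hq, map_add, map_nsmul, nsmul_eq_mul] at hzk
      have b1 : |q (x + z) - q x - q z| ≤ ∑ z ∈ Z, |q (x + z) - q x - q z| :=
        Finset.single_le_sum (f := fun z => |q (x + z) - q x - q z|) (fun _ _ => abs_nonneg _) hz
      have b2 : |q z + mu z| ≤ M2 :=
        Finset.single_le_sum (f := fun z => |q z + mu z|) (fun _ _ => abs_nonneg _) hz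
      have b3 : (q (x + z) - q x - q z) + mu x ≤ M1 := by
        have := le_abs_self (q (x + z) - q x - q z)
        have := le_abs_self (mu x)
        linarith
      have b4 : q z + mu z ≤ M2 := (le_abs_self _).trans b2
      have hk : (0 : ℝ) ≤ k := Nat.cast_nonneg k
      have b5 : (k : ℝ) * ((q (x + z) - q x - q z) + mu x) ≤ k * M1 :=
        mul_le_mul_of_nonneg_left b3 hk
      have := hu (k • x)
      linarith
    obtain ⟨k, hk⟩ := exists_nat_gt ((M1 + D) / (-q x) + 1)
    have hqx : 0 < -q x := by linarith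
    have hk1 : (1 : ℝ) ≤ k := by
      have : 0 ≤ (M1 + D) / (-q x) := by positivity
      linarith
    have hk2 : M1 + D ≤ k * (-q x) := by
      have : (M1 + D) / (-q x) ≤ k := by linarith
      rwa [div_le_iff₀ hqx] at this
    have hk3 : (k : ℝ) * (M1 + D) ≤ k * (k * (-q x)) :=
      mul_le_mul_of_nonneg_left hk2 (by linarith)
    have hk4 : D ≤ k * D := by nlinarith
    have hk5 : M2 + C < D := by
      have := le_abs_self (M2 + C)
      linarith
    have := key k
    nlinarith
  refine ⟨hnn, 2 * C + 2 * ∑ z ∈ Z, |3 * q z + mu z|, fun x => ?_⟩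
  obtain ⟨z, hz, h1⟩ := h x
  obtain ⟨z', hz', h2⟩ := h (-x)
  have b1 : 3 * q z + mu z ≤ ∑ z ∈ Z, |3 * q z + mu z| :=
    (le_abs_self _).trans
      (Finset.single_le_sum (f := fun z => |3 * q z + mu z|) (fun _ _ => abs_nonneg _) hz)
  have b2 : 3 * q z' + mu z' ≤ ∑ z ∈ Z, |3 * q z + mu z| :=
    (le_abs_self _).trans
      (Finset.single_le_sum (f := fun z => |3 * q z + mu z|) (fun _ _ => abs_nonneg _) hz')
  have c1 := q_add_le q hq hnn x z
  have c2 := q_add_le q hq hnn (-x) z'
  rw [q_neg q hq] at c2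
  rw [map_add] at h1 h2
  rw [map_neg] at h2
  have := hu (-x)
  linarith

end Fermat.Agent.S17

end
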