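import Mathlib
import Fermat.Agent.S17.Tools.Minors
import Fermat.Agent.S17.Tools.MinorsRank

/-! # S17 tools: the kernel of a full rank matrix is spanned by the vectors `v_T` (T5g) -/

set_option autoImplicit false

noncomputable section

namespace Fermat.Agent.S17

open Matrix

/-- The vector `v_T`, `T` an `(n+1)`-subset of the columns. -/
def kerVec {R : Type*} [CommRing R] {n d : ℕ} (A : Matrix (Fin n) (Fin d) R)
    (T : Fin (n + 1) ↪o Fin d) : Fin d → R :=
  fun c => ∑ i : Fin (n + 1), if T i = c then
    (-1) ^ (i : ℕ) * (A.submatrix id (fun j : Fin n => T (i.succAbove j))).det else 0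

theorem kerVec_apply_emb {R : Type*} [CommRing R] {n d : ℕ} (A : Matrix (Fin n) (Fin d) R)
    (T : Fin (n + 1) ↪o Fin d) (i : Fin (n + 1)) :
    kerVec A T (T i) =
      (-1) ^ (i : ℕ) * (A.submatrix id (fun j : Fin n => T (i.succAbove j))).det := by
  unfold kerVec
  rw [Finset.sum_eq_single i]
  · simp
  · intro b _ hb
    rw [if_neg]
    intro h
    exact hb (T.injective h)
  · intro h
    exact absurd (Finset.mem_univ _) h

theorem kerVec_apply_of_notMem {R : Type*} [CommRing R] {n d : ℕ} (A : Matrix (Fin n) (Fin d) R)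
    (T : Fin (n + 1) ↪o Fin d) (c : Fin d) (hc : c ∉ Set.range T) : kerVec A T c = 0 := by
  unfold kerVec
  refine Finset.sum_eq_zero fun i _ => ?_
  rw [if_neg]
  intro h
  exact hc ⟨i, h⟩

/-- `v_T` lies in the kernel (Laplace expansion of a matrix with a repeated row). -/
theorem mulVec_kerVec {R : Type*} [CommRing R] {n d : ℕ} (A : Matrix (Fin n) (Fin d) R)
    (T : Fin (n + 1) ↪o Fin d) : A *ᵥ kerVec A T = 0 := by
  funext r
  have h1 : (A *ᵥ kerVec A T) r = ∑ i : Fin (n + 1), A r (T i) * kerVec A T (T i) := by
    simp only [Matrix.mulVec, dotProduct]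
    symm
    refine Fintype.sum_of_injective T T.injective _ _ ?_ (fun _ => rfl)
    intro c hc
    rw [kerVec_apply_of_notMem A T c hc, mul_zero]
  -- the matrix with the repeated row
  let N : Matrix (Fin (n + 1)) (Fin (n + 1)) R :=
    Matrix.of (Fin.cons (fun i => A r (T i)) (fun (k : Fin n) i => A k (T i)))
  have hN : N.det = 0 := by
    refine Matrix.det_zero_of_row_eq (i := 0) (j := r.succ) (Fin.succ_ne_zero r).symm ?_
    funext i
    simp [N]
  have h2 : N.det = ∑ i : Fin (n + 1), A r (T i) * kerVec A T (T i) := by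
    rw [Matrix.det_succ_row_zero]
    refine Finset.sum_congr rfl fun i _ => ?_
    rw [kerVec_apply_emb]
    have : N.submatrix Fin.succ i.succAbove
        = A.submatrix id (fun j : Fin n => T (i.succAbove j)) := by
      ext a b
      simp [N]
    rw [this]
    simp only [N, Matrix.of_apply, Fin.cons_zero]
    ring
  rw [h1, ← h2, hN]
  rfl

/-- Adding one column to an `n`-subset of the columns. -/
theorem exists_orderEmbedding_insert {n d : ℕ} (S : Fin n ↪o Fin d) (c : Fin d)
    (hc : c ∉ Set.range S) :
    ∃ (T : Fin (n + 1) ↪o Fin d) (i : Fin (n + 1)), T i = c ∧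
      (fun j : Fin n => T (i.succAbove j)) = S ∧ Set.range T = insert c (Set.range S) := by
  classical
  let s : Finset (Fin d) := insert c (Finset.univ.map S.toEmbedding)
  have hcs : c ∉ Finset.univ.map S.toEmbedding := by
    intro h
    obtain ⟨j, _, hj⟩ := Finset.mem_map.1 h
    exact hc ⟨j, hj⟩
  have hcard : s.card = n + 1 := by
    rw [Finset.card_insert_of_notMem hcs, Finset.card_map, Finset.card_univ, Fintype.card_fin]
  let T := s.orderEmbOfFin hcard
  have hrange : Set.range T = insert c (Set.range S) := by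
    rw [Finset.range_orderEmbOfFin]
    ext x
    simp [s]
  obtain ⟨i, hi⟩ : c ∈ Set.range T := by rw [hrange]; exact Set.mem_insert _ _
  refine ⟨T, i, hi, ?_, hrange⟩
  have hmono : StrictMono (fun j : Fin n => T (i.succAbove j)) :=
    T.strictMono.comp (Fin.strictMono_succAbove i)
  rw [← StrictMono.range_inj hmono S.strictMono]
  ext x
  constructor
  · rintro ⟨j, rfl⟩
    have h1 : T (i.succAbove j) ∈ insert c (Set.range S) := hrange ▸ Set.mem_range_self _
    rcases h1 with h1 | h1
    · exfalso
      rw [← hi] at h1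
      exact Fin.succAbove_ne i j (T.injective h1)
    · exact h1
  · intro hx
    have h1 : x ∈ Set.range T := by rw [hrange]; exact Set.mem_insert_of_mem _ hx
    obtain ⟨k, rfl⟩ := h1
    have hk : k ≠ i := by
      rintro rfl
      exact hc (hi ▸ hx)
    obtain ⟨j, rfl⟩ := Fin.exists_succAbove_eq hk
    exact ⟨j, rfl⟩

/-- T5g. -/
theorem span_kerVec {K : Type*} [Field K] {n d : ℕ} (A : Matrix (Fin n) (Fin d) K)
    (hA : LinearIndependent K A.row) :
    Submodule.span K (Set.range (kerVec A)) = LinearMap.ker A.mulVecLin := by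
  classical
  apply le_antisymm
  · rw [Submodule.span_le]
    rintro _ ⟨T, rfl⟩
    simp only [SetLike.mem_coe, LinearMap.mem_ker, Matrix.mulVecLin_apply]
    exact mulVec_kerVec A T
  · intro x hx
    rw [LinearMap.mem_ker, Matrix.mulVecLin_apply] at hx
    obtain ⟨S0, hS0⟩ : ∃ S, minors A S ≠ 0 := by
      by_contra hcon
      push Not at hcon
      exact (minors_ne_zero_iff A).2 hA (funext hcon)
    have hex : ∀ c : {c : Fin d // c ∉ Set.range S0},
        ∃ (T : Fin (n + 1) ↪o Fin d) (i : Fin (n + 1)), T i = c.1 ∧
          (fun j : Fin n => T (i.succAbove j)) = S0 ∧ Set.range T = insert c.1 (Set.range S0) :=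
      fun c => exists_orderEmbedding_insert S0 c.1 c.2
    choose T i hTi hTS hTr using hex
    have hval : ∀ c, kerVec A (T c) c.1 ≠ 0 := by
      intro c
      rw [← hTi c, kerVec_apply_emb, hTS c]
      exact mul_ne_zero (pow_ne_zero _ (neg_ne_zero.2 one_ne_zero)) hS0
    set z : Fin d → K := ∑ c, (x c.1 / kerVec A (T c) c.1) • kerVec A (T c) with hz
    have hzmem : z ∈ Submodule.span K (Set.range (kerVec A)) :=
      Submodule.sum_mem _ fun c _ => Submodule.smul_mem _ _ (Submodule.subset_span ⟨T c, rfl⟩)
    have hAz : A *ᵥ z = 0 := by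
      rw [hz, Matrix.mulVec_sum]
      refine Finset.sum_eq_zero fun c _ => ?_
      rw [Matrix.mulVec_smul, mulVec_kerVec, smul_zero]
    have hzc : ∀ c : {c : Fin d // c ∉ Set.range S0}, z c.1 = x c.1 := by
      intro c
      rw [hz, Finset.sum_apply, Finset.sum_eq_single c]
      · simp only [Pi.smul_apply, smul_eq_mul]
        exact div_mul_cancel₀ _ (hval c)
      · intro b _ hb
        have : c.1 ∉ Set.range (T b) := by
          rw [hTr b]
          intro h
          rcases h with h | h
          · exact hb (Subtype.ext h.symm)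
          · exact c.2 h
        simp [kerVec_apply_of_notMem A (T b) c.1 this]
      · intro h
        exact absurd (Finset.mem_univ _) h
    -- the difference is supported on `S0` and killed by an invertible matrix
    have hy : A *ᵥ (x - z) = 0 := by rw [Matrix.mulVec_sub, hx, hAz, sub_zero]
    have hy0 : ∀ c, c ∉ Set.range S0 → (x - z) c = 0 := by
      intro c hc
      simp [hzc ⟨c, hc⟩]
    have hsub : (A.submatrix id S0) *ᵥ (fun j => (x - z) (S0 j)) = 0 := by
      funext r
      have := congrFun hy r
      simp only [Matrix.mulVec, dotProduct, Pi.zero_apply] at this ⊢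
      rw [← this]
      refine Fintype.sum_of_injective S0 S0.injective _ _ ?_ (fun _ => rfl)
      intro c hc
      rw [hy0 c hc, mul_zero]
    have hzero : (fun j => (x - z) (S0 j)) = 0 :=
      Matrix.eq_zero_of_mulVec_eq_zero hS0 hsub
    have hxz : x - z = 0 := by
      funext c
      by_cases hc : c ∈ Set.range S0
      · obtain ⟨j, rfl⟩ := hc
        exact congrFun hzero j
      · exact hy0 c hc
    rw [sub_eq_zero] at hxz
    rw [hxz]
    exact hzmem

end Fermat.Agent.S17
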