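import Fermat.Agent.S17.Tools.VCDefs

/-! # S17 tools, T3: an integral relation over the ideal `(b)` bounds heights. -/

set_option autoImplicit false
set_option linter.unusedSectionVars false

noncomputable section

namespace Fermat.Agent.S17

open MvPolynomial Height Height.AdmissibleAbsValues

/-! ### Two inequalities for real numbers -/

theorem le_of_pow_le_mul_pow {α M : ℝ} (hα : 0 ≤ α) (hM : 0 ≤ M) {n m : ℕ} (hm : 1 ≤ m)
    (hmn : m ≤ n) (h : α ^ n ≤ M ^ m * α ^ (n - m)) : α ≤ M := by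
  by_contra hlt
  push Not at hlt
  have hαpos : 0 < α := lt_of_le_of_lt hM hlt
  have h1 : α ^ n = α ^ m * α ^ (n - m) := by rw [← pow_add, Nat.add_sub_cancel' hmn]
  rw [h1] at h
  have h2 : α ^ m ≤ M ^ m := le_of_mul_le_mul_right h (pow_pos hαpos _)
  have h3 : α ≤ M := (pow_le_pow_iff_left₀ hα hM (by omega)).mp h2
  exact absurd h3 (not_le.mpr hlt)

theorem le_of_pow_le_sum_mul_pow {α M : ℝ} (hM : 0 ≤ M) {n : ℕ} (hn : 0 < n)
    (B : ℕ → ℝ) (hB : ∀ m, 0 ≤ B m)
    (h : α ^ n ≤ ∑ m ∈ Finset.Icc 1 n, B m * M ^ m * α ^ (n - m)) :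
    α ≤ max 1 (∑ m ∈ Finset.Icc 1 n, B m) * M := by
  by_contra hlt
  push Not at hlt
  set Bt := max 1 (∑ m ∈ Finset.Icc 1 n, B m) with hBt
  have hBt1 : 1 ≤ Bt := le_max_left _ _
  have hMα : M ≤ α := by nlinarith
  have hαpos : 0 < α := lt_of_le_of_lt (by positivity) hlt
  have hterm : ∀ m ∈ Finset.Icc 1 n, B m * M ^ m * α ^ (n - m) ≤ B m * (M * α ^ (n - 1)) := by
    intro m hm
    rw [Finset.mem_Icc] at hm
    rw [mul_assoc]
    apply mul_le_mul_of_nonneg_left _ (hB m)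
    obtain ⟨k, rfl⟩ : ∃ k, m = k + 1 := ⟨m - 1, by omega⟩
    have : α ^ (n - 1) = α ^ k * α ^ (n - (k + 1)) := by
      rw [← pow_add]; congr 1; omega
    rw [this, pow_succ', mul_assoc]
    gcongr
  have h2 : α ^ n ≤ Bt * M * α ^ (n - 1) := by
    calc α ^ n ≤ _ := h
      _ ≤ ∑ m ∈ Finset.Icc 1 n, B m * (M * α ^ (n - 1)) := Finset.sum_le_sum hterm
      _ = (∑ m ∈ Finset.Icc 1 n, B m) * (M * α ^ (n - 1)) := by rw [Finset.sum_mul]
      _ ≤ Bt * (M * α ^ (n - 1)) := by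
          gcongr
          exact le_max_right _ _
      _ = _ := by ring
  have h3 : α ^ n = α * α ^ (n - 1) := by
    rw [← pow_succ']; congr 1; omega
  rw [h3] at h2
  have := le_of_mul_le_mul_right h2 (pow_pos hαpos _)
  exact absurd this (not_le.mpr hlt)

/-! ### Local bounds -/

section Local

variable {K σ κ : Type} [Field K] [Finite κ] (b : κ → MvPolynomial σ K)

/-- `|c(y)|_v ≤ B max_j |b_j(y)|_v ^ m` on the unit polydisc of `v`. -/
def ICLocBdd (v : AbsoluteValue K ℝ) (B : ℝ) (m : ℕ) (c : MvPolynomial σ K) : Prop :=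
  ∀ y : σ → K, (∀ i, v (y i) ≤ 1) → v (eval y c) ≤ B * (⨆ j, v (eval y (b j))) ^ m

variable {b}

theorem iSup_abv_nonneg (v : AbsoluteValue K ℝ) (y : σ → K) : 0 ≤ ⨆ j, v (eval y (b j)) :=
  Real.iSup_nonneg fun _ => v.nonneg _

theorem ICLocBdd.zero {v : AbsoluteValue K ℝ} {B : ℝ} (hB : 0 ≤ B) (m : ℕ) : ICLocBdd b v B m 0 := by
  intro y _
  rw [map_zero, map_zero]
  exact mul_nonneg hB (pow_nonneg (iSup_abv_nonneg v y) m)

theorem ICLocBdd.add {v : AbsoluteValue K ℝ} {B₁ B₂ : ℝ} {m : ℕ} {c₁ c₂ : MvPolynomial σ K}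
    (h₁ : ICLocBdd b v B₁ m c₁) (h₂ : ICLocBdd b v B₂ m c₂) : ICLocBdd b v (B₁ + B₂) m (c₁ + c₂) := by
  intro y hy
  rw [map_add, add_mul]
  exact (v.add_le _ _).trans (add_le_add (h₁ y hy) (h₂ y hy))

theorem ICLocBdd.add_of_isNonarchimedean {v : AbsoluteValue K ℝ} (hv : IsNonarchimedean v) {B : ℝ}
    {m : ℕ} {c₁ c₂ : MvPolynomial σ K}
    (h₁ : ICLocBdd b v B m c₁) (h₂ : ICLocBdd b v B m c₂) : ICLocBdd b v B m (c₁ + c₂) := by
  intro y hy
  rw [map_add]
  exact (hv _ _).trans (max_le (h₁ y hy) (h₂ y hy))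

theorem ICLocBdd.mul {v : AbsoluteValue K ℝ} {B₁ B₂ : ℝ} {m₁ m₂ : ℕ} {c₁ c₂ : MvPolynomial σ K}
    (hB₁ : 0 ≤ B₁) (h₁ : ICLocBdd b v B₁ m₁ c₁) (h₂ : ICLocBdd b v B₂ m₂ c₂) :
    ICLocBdd b v (B₁ * B₂) (m₁ + m₂) (c₁ * c₂) := by
  intro y hy
  rw [map_mul, map_mul, pow_add, mul_mul_mul_comm]
  exact mul_le_mul (h₁ y hy) (h₂ y hy) (v.nonneg _)
    (mul_nonneg hB₁ (pow_nonneg (iSup_abv_nonneg v y) _))

theorem ICLocBdd.self (v : AbsoluteValue K ℝ) (j : κ) : ICLocBdd b v 1 1 (b j) := by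
  intro y _
  rw [one_mul, pow_one]
  exact Finite.le_ciSup (fun j => v (eval y (b j))) j

theorem ICLocBdd.C (v : AbsoluteValue K ℝ) (a : K) : ICLocBdd b v (v a) 0 (C a) := by
  intro y _
  rw [eval_C, pow_zero, mul_one]

theorem ICLocBdd.X (v : AbsoluteValue K ℝ) (i : σ) : ICLocBdd b v 1 0 (X i) := by
  intro y hy
  rw [eval_X, pow_zero, mul_one]
  exact hy i

end Local

/-! ### Bounds at all places simultaneously -/

section ICGood

variable {K σ κ : Type} [Field K] [AdmissibleAbsValues K] [Finite κ]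
  (b : κ → MvPolynomial σ K)

/-- A bound at every absolute value, with constant `1` at almost all nonarchimedean places. -/
def ICGood (m : ℕ) (c : MvPolynomial σ K) : Prop :=
  (∀ v : AbsoluteValue K ℝ, ∃ B : ℝ, 0 ≤ B ∧ ICLocBdd b v B m c) ∧
    ∀ᶠ v : nonarchAbsVal (K := K) in Filter.cofinite, ICLocBdd b v.val 1 m c

variable {b}

theorem ICGood.zero (m : ℕ) : ICGood b m 0 :=
  ⟨fun _ => ⟨0, le_rfl, ICLocBdd.zero le_rfl m⟩, Filter.Eventually.of_forall fun _ =>
    ICLocBdd.zero zero_le_one m⟩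

theorem ICGood.add {m : ℕ} {c₁ c₂ : MvPolynomial σ K} (h₁ : ICGood b m c₁) (h₂ : ICGood b m c₂) :
    ICGood b m (c₁ + c₂) := by
  refine ⟨fun v => ?_, ?_⟩
  · obtain ⟨B₁, hB₁, h₁'⟩ := h₁.1 v
    obtain ⟨B₂, hB₂, h₂'⟩ := h₂.1 v
    exact ⟨B₁ + B₂, add_nonneg hB₁ hB₂, h₁'.add h₂'⟩
  · filter_upwards [h₁.2, h₂.2] with v h₁' h₂'
    exact h₁'.add_of_isNonarchimedean (isNonarchimedean _ v.prop) h₂'

theorem ICGood.mul {m₁ m₂ : ℕ} {c₁ c₂ : MvPolynomial σ K} (h₁ : ICGood b m₁ c₁) (h₂ : ICGood b m₂ c₂) :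
    ICGood b (m₁ + m₂) (c₁ * c₂) := by
  refine ⟨fun v => ?_, ?_⟩
  · obtain ⟨B₁, hB₁, h₁'⟩ := h₁.1 v
    obtain ⟨B₂, hB₂, h₂'⟩ := h₂.1 v
    exact ⟨B₁ * B₂, mul_nonneg hB₁ hB₂, h₁'.mul hB₁ h₂'⟩
  · filter_upwards [h₁.2, h₂.2] with v h₁' h₂'
    simpa using h₁'.mul zero_le_one h₂'

theorem ICGood.self (j : κ) : ICGood b 1 (b j) :=
  ⟨fun v => ⟨1, zero_le_one, ICLocBdd.self v j⟩, Filter.Eventually.of_forall fun v =>
    ICLocBdd.self v.val j⟩

theorem ICGood.C (a : K) : ICGood b 0 (C a) := by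
  rcases eq_or_ne a 0 with rfl | ha
  · rw [map_zero]
    exact ICGood.zero 0
  refine ⟨fun v => ⟨v a, v.nonneg a, ICLocBdd.C v a⟩, ?_⟩
  have hfin : {v : nonarchAbsVal (K := K) | v.val a ≠ 1}.Finite := hasFiniteMulSupport ha
  filter_upwards [hfin.compl_mem_cofinite] with v hv
  have hv1 : v.val a = 1 := by
    by_contra hne
    exact hv hne
  have := ICLocBdd.C (b := b) v.val a
  rwa [hv1] at this

theorem ICGood.X (i : σ) : ICGood b 0 (X i) :=
  ⟨fun v => ⟨1, zero_le_one, ICLocBdd.X v i⟩, Filter.Eventually.of_forall fun v =>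
    ICLocBdd.X v.val i⟩

theorem ICGood.of_any (c : MvPolynomial σ K) : ICGood b 0 c := by
  induction c using MvPolynomial.induction_on with
  | C a => exact ICGood.C a
  | add p q hp hq => exact hp.add hq
  | mul_X p i hp => exact hp.mul (ICGood.X i)

theorem ICGood.of_mem_span {c : MvPolynomial σ K} (hc : c ∈ Ideal.span (Set.range b)) :
    ICGood b 1 c := by
  induction hc using Submodule.span_induction with
  | mem x hx =>
    obtain ⟨j, rfl⟩ := hx
    exact ICGood.self j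
  | zero => exact ICGood.zero 1
  | add x y _ _ hx hy => exact hx.add hy
  | smul r x _ hx =>
    have := (ICGood.of_any (b := b) r).mul hx
    rwa [zero_add] at this

theorem ICGood.of_mem_pow {m : ℕ} {c : MvPolynomial σ K}
    (hc : c ∈ Ideal.span (Set.range b) ^ m) : ICGood b m c := by
  induction m generalizing c with
  | zero => exact ICGood.of_any c
  | succ m ih =>
    rw [pow_succ] at hc
    induction hc using Submodule.mul_induction_on' with
    | mem_mul_mem x hx y hy => exact (ih hx).mul (ICGood.of_mem_span hy)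
    | add x _ y _ hx hy => exact hx.add hy

end ICGood

/-! ### From the integral relation to the local inequalities -/

section Rel

variable {K σ κ : Type} [Field K] [Finite κ] {b : κ → MvPolynomial σ K}

theorem abv_le_of_rel (v : AbsoluteValue K ℝ) {n : ℕ} (hn : 0 < n) (c : ℕ → MvPolynomial σ K)
    (B : ℕ → ℝ) (hB : ∀ m, 0 ≤ B m) (hc : ∀ m, ICLocBdd b v (B m) m (c m))
    (a : MvPolynomial σ K) (y : σ → K) (hy : ∀ i, v (y i) ≤ 1)
    (hrel : eval y a ^ n = ∑ i ∈ Finset.Icc 1 n, eval y (c i) * eval y a ^ (n - i)) :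
    v (eval y a) ≤ max 1 (∑ m ∈ Finset.Icc 1 n, B m) * ⨆ j, v (eval y (b j)) := by
  apply le_of_pow_le_sum_mul_pow (iSup_abv_nonneg v y) hn B hB
  rw [← map_pow, hrel]
  refine (v.sum_le _ _).trans (Finset.sum_le_sum fun m _ => ?_)
  rw [map_mul, map_pow]
  exact mul_le_mul_of_nonneg_right (hc m y hy) (pow_nonneg (v.nonneg _) _)

theorem abv_le_of_rel_of_isNonarchimedean {v : AbsoluteValue K ℝ} (hv : IsNonarchimedean v)
    {n : ℕ} (hn : 0 < n) (c : ℕ → MvPolynomial σ K)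
    (hc : ∀ m ∈ Finset.Icc 1 n, ICLocBdd b v 1 m (c m))
    (a : MvPolynomial σ K) (y : σ → K) (hy : ∀ i, v (y i) ≤ 1)
    (hrel : eval y a ^ n = ∑ i ∈ Finset.Icc 1 n, eval y (c i) * eval y a ^ (n - i)) :
    v (eval y a) ≤ ⨆ j, v (eval y (b j)) := by
  obtain ⟨m, hm, hle⟩ := hv.finset_image_add_of_nonempty
    (fun i => eval y (c i) * eval y a ^ (n - i)) (Finset.nonempty_Icc.mpr hn)
  have hm' := Finset.mem_Icc.mp hm
  apply le_of_pow_le_mul_pow (v.nonneg _) (iSup_abv_nonneg v y) hm'.1 hm'.2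
  rw [← map_pow, hrel]
  refine hle.trans ?_
  rw [map_mul, map_pow]
  have := hc m hm y hy
  rw [one_mul] at this
  exact mul_le_mul_of_nonneg_right this (pow_nonneg (v.nonneg _) _)

end Rel

section Main

variable {K σ ι κ : Type} [Field K] [AdmissibleAbsValues K] [Finite κ]

theorem exists_abv_le_of_integralOn {S : Set (σ → K)} {a : MvPolynomial σ K}
    {b : κ → MvPolynomial σ K} (hrel : IntegralOn S a b) (v : AbsoluteValue K ℝ) :
    ∃ C : ℝ, 1 ≤ C ∧ ∀ y ∈ S, (∀ i, v (y i) ≤ 1) →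
      v (eval y a) ≤ C * ⨆ j, v (eval y (b j)) := by
  obtain ⟨n, c, hn, hc, hrel⟩ := hrel
  have hgood : ∀ m, ∃ B : ℝ, 0 ≤ B ∧ ICLocBdd b v B m (c m) := fun m => (ICGood.of_mem_pow (hc m)).1 v
  choose B hB hBc using hgood
  exact ⟨_, le_max_left _ _, fun y hyS hy => abv_le_of_rel v hn c B hB hBc a y hy (hrel y hyS)⟩

theorem eventually_abv_le_of_integralOn {S : Set (σ → K)} {a : MvPolynomial σ K}
    {b : κ → MvPolynomial σ K} (hrel : IntegralOn S a b) :
    ∀ᶠ v : nonarchAbsVal (K := K) in Filter.cofinite, ∀ y ∈ S, (∀ i, v.val (y i) ≤ 1) →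
      v.val (eval y a) ≤ ⨆ j, v.val (eval y (b j)) := by
  obtain ⟨n, c, hn, hc, hrel⟩ := hrel
  have hgood : ∀ᶠ v : nonarchAbsVal (K := K) in Filter.cofinite,
      ∀ m ∈ Finset.Icc 1 n, ICLocBdd b v.val 1 m (c m) :=
    (Filter.eventually_all_finset _).mpr fun m _ => (ICGood.of_mem_pow (hc m)).2
  filter_upwards [hgood] with v hv y hyS hy
  exact abv_le_of_rel_of_isNonarchimedean (isNonarchimedean _ v.prop) hn c hv a y hy (hrel y hyS)

/-- Transport of a local inequality along the normalisation. -/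
theorem abv_le_of_normalizable {S : Set (σ → K)} {a : ι → MvPolynomial σ K}
    {b : κ → MvPolynomial σ K} (hnorm : Normalizable S a b) (v : AbsoluteValue K ℝ) (i : ι) (C : ℝ)
    (h : ∀ y ∈ S, (∀ i, v (y i) ≤ 1) → v (eval y (a i)) ≤ C * ⨆ j, v (eval y (b j)))
    (y : σ → K) (hy : y ∈ S) : v (eval y (a i)) ≤ C * ⨆ j, v (eval y (b j)) := by
  obtain ⟨y', hy'S, c, _, hy', ha, hb⟩ := hnorm v y hy
  have h1 := h y' hy'S hy'
  have h2 : (⨆ j, v (eval y (b j))) = v c * ⨆ j, v (eval y' (b j)) := by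
    rw [Real.mul_iSup_of_nonneg (v.nonneg c)]
    congr 1
    ext j
    rw [hb j, map_mul]
  rw [ha i, map_mul, h2, mul_left_comm]
  exact mul_le_mul_of_nonneg_left h1 (v.nonneg c)

theorem eval_ne_zero_of_integralOn {S : Set (σ → K)} {a : ι → MvPolynomial σ K}
    {b : κ → MvPolynomial σ K} (hrel : ∀ i, IntegralOn S (a i) b) (y : σ → K) (hy : y ∈ S)
    (ha : (fun i => eval y (a i)) ≠ 0) : (fun j => eval y (b j)) ≠ 0 := by
  intro hb
  apply ha
  funext i
  obtain ⟨n, c, hn, hc, hrel⟩ := hrel i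
  have hker : Ideal.span (Set.range b) ≤ RingHom.ker (eval y) := by
    rw [Ideal.span_le]
    rintro _ ⟨j, rfl⟩
    exact congrFun hb j
  have hc0 : ∀ m ∈ Finset.Icc 1 n, eval y (c m) = 0 := by
    intro m hm
    have h1 : Ideal.span (Set.range b) ^ m ≤ Ideal.span (Set.range b) :=
      Ideal.pow_le_self (by have := (Finset.mem_Icc.mp hm).1; omega)
    exact hker (h1 (hc m))
  have h0 : eval y (a i) ^ n = 0 := by
    rw [hrel y hy]
    exact Finset.sum_eq_zero fun m hm => by rw [hc0 m hm, zero_mul]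
  exact pow_eq_zero_iff hn.ne' |>.mp h0

theorem hasFiniteMulSupport_iSup_nonarch [Finite ι] {x : ι → K} (hx : x ≠ 0) :
    (fun v : nonarchAbsVal (K := K) ↦ ⨆ i, v.val (x i)).HasFiniteMulSupport := by
  fun_prop (disch := assumption)

end Main

/-- T3 (file Tools/ICHeight.lean). -/
theorem logHeight_le_of_integralOn {K σ ι κ : Type} [Field K] [AdmissibleAbsValues K]
    [Finite σ] [Finite ι] [Finite κ] (S : Set (σ → K)) (a : ι → MvPolynomial σ K)
    (b : κ → MvPolynomial σ K) (hrel : ∀ i, IntegralOn S (a i) b) (hnorm : Normalizable S a b) :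
    ∃ C : ℝ, ∀ y ∈ S, (fun i => eval y (a i)) ≠ 0 →
      logHeight (fun i => eval y (a i)) ≤ logHeight (fun j => eval y (b j)) + C := by
  classical
  cases nonempty_fintype ι
  have L1 : ∀ v : AbsoluteValue K ℝ, ∃ C : ℝ, 1 ≤ C ∧
      ∀ y ∈ S, ∀ i, v (eval y (a i)) ≤ C * ⨆ j, v (eval y (b j)) := by
    intro v
    have h := fun i => exists_abv_le_of_integralOn (hrel i) v
    choose C hC1 hC using h
    refine ⟨1 + ∑ i, C i, ?_, fun y hy i => ?_⟩
    · have : 0 ≤ ∑ i, C i := Finset.sum_nonneg fun i _ => zero_le_one.trans (hC1 i)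
      linarith
    · refine (abv_le_of_normalizable hnorm v i (C i) (hC i) y hy).trans ?_
      apply mul_le_mul_of_nonneg_right _ (iSup_abv_nonneg v y)
      have : C i ≤ ∑ i, C i :=
        Finset.single_le_sum (fun i _ => zero_le_one.trans (hC1 i)) (Finset.mem_univ i)
      linarith
  have L2 : ∀ᶠ v : nonarchAbsVal (K := K) in Filter.cofinite,
      ∀ y ∈ S, ∀ i, v.val (eval y (a i)) ≤ ⨆ j, v.val (eval y (b j)) := by
    have h : ∀ᶠ v : nonarchAbsVal (K := K) in Filter.cofinite, ∀ i, ∀ y ∈ S,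
        (∀ i, v.val (y i) ≤ 1) → v.val (eval y (a i)) ≤ ⨆ j, v.val (eval y (b j)) :=
      Filter.eventually_all.mpr fun i => eventually_abv_le_of_integralOn (hrel i)
    filter_upwards [h] with v hv y hy i
    have := abv_le_of_normalizable hnorm v.val i 1 (by simpa using hv i) y hy
    simpa using this
  choose C hC1 hC using L1
  let C' : nonarchAbsVal (K := K) → ℝ := fun v =>
    if (∀ y ∈ S, ∀ i, v.val (eval y (a i)) ≤ ⨆ j, v.val (eval y (b j))) then 1 else C v.val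
  have hC'fin : C'.HasFiniteMulSupport := by
    refine Set.Finite.subset (Filter.eventually_cofinite.mp L2) fun v hv => ?_
    intro hgood
    apply hv
    simp only [C']
    rw [if_pos hgood]
  have hC'1 : ∀ v, 1 ≤ C' v := by
    intro v
    simp only [C']
    split_ifs
    · exact le_rfl
    · exact hC1 _
  have hC' : ∀ v : nonarchAbsVal (K := K), ∀ y ∈ S, ∀ i,
      v.val (eval y (a i)) ≤ C' v * ⨆ j, v.val (eval y (b j)) := by
    intro v y hy i
    simp only [C']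
    split_ifs with hgood
    · rw [one_mul]
      exact hgood y hy i
    · exact hC _ y hy i
  have hA1 : 1 ≤ (archAbsVal.map C).prod := Multiset.one_le_prod_map fun v _ => hC1 v
  have hN1 : 1 ≤ ∏ᶠ v, C' v := one_le_finprod hC'1
  refine ⟨Real.log ((archAbsVal.map C).prod * ∏ᶠ v, C' v), fun y hy ha => ?_⟩
  have hb := eval_ne_zero_of_integralOn hrel y hy ha
  have : Nonempty ι := (Function.ne_iff.mp ha).nonempty
  rw [logHeight_eq_log_mulHeight, logHeight_eq_log_mulHeight,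
    ← Real.log_mul (mulHeight_ne_zero _) (by positivity)]
  apply Real.log_le_log (mulHeight_pos _)
  rw [mulHeight_eq ha, mulHeight_eq hb, mul_mul_mul_comm]
  have hbfin := hasFiniteMulSupport_iSup_nonarch hb
  have hafin := hasFiniteMulSupport_iSup_nonarch ha
  apply mul_le_mul
  · rw [← Multiset.prod_map_mul]
    refine Multiset.prod_map_le_prod_map₀ _ _
      (fun v _ => Real.iSup_nonneg fun _ => v.nonneg _) fun v _ => ?_
    rw [mul_comm]
    exact ciSup_le fun i => hC v y hy i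
  · rw [← finprod_mul_distrib hbfin hC'fin]
    refine finprod_le_finprod hafin (fun v => Real.iSup_nonneg fun _ => v.val.nonneg _)
      (hbfin.mul hC'fin) fun v => ?_
    rw [mul_comm]
    exact ciSup_le fun i => hC' v y hy i
  · exact finprod_nonneg fun v => Real.iSup_nonneg fun _ => v.val.nonneg _
  · exact mul_nonneg (Multiset.prod_map_nonneg fun v _ => Real.iSup_nonneg fun _ => v.nonneg _)
      (zero_le_one.trans hA1)

end Fermat.Agent.S17
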