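import Mathlib

/-! # S17 tools, Q2': a quasi-additive function is at bounded distance from an additive one
(Hyers) -/

set_option autoImplicit false

noncomputable section

namespace Fermat.Agent.S17

open Filter Topology

/-- Q2' (file Tools/QuasiAdd.lean). -/
theorem exists_additive_of_quasi {G : Type*} [AddCommGroup G] (l : G → ℝ) (C : ℝ)
    (hl : ∀ x y, |l (x + y) - l x - l y| ≤ C) :
    ∃ lam : G →+ ℝ, ∀ x, |l x - lam x| ≤ C := by
  let a : G → ℕ → ℝ := fun x k => l (2 ^ k • x) / 2 ^ k
  have hstep : ∀ x k, dist (a x k) (a x (k + 1)) ≤ C / 2 / 2 ^ k := by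
    intro x k
    have h := hl (2 ^ k • x) (2 ^ k • x)
    have e : (2 ^ (k + 1) : ℕ) • x = 2 ^ k • x + 2 ^ k • x := by
      rw [pow_succ, mul_comm, mul_smul, two_smul]
    have hp : (0 : ℝ) < 2 ^ k := by positivity
    simp only [a]
    rw [e, Real.dist_eq, abs_sub_comm]
    have e2 : l (2 ^ k • x + 2 ^ k • x) / 2 ^ (k + 1) - l (2 ^ k • x) / 2 ^ k =
        (l (2 ^ k • x + 2 ^ k • x) - l (2 ^ k • x) - l (2 ^ k • x)) / (2 * 2 ^ k) := by
      rw [pow_succ]
      field_simp
      ring
    rw [e2, abs_div, abs_of_pos (by positivity : (0 : ℝ) < 2 * 2 ^ k), div_div]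
    exact div_le_div_of_nonneg_right h (by positivity)
  have hc : ∀ x, CauchySeq (a x) := fun x => cauchySeq_of_le_geometric_two (hstep x)
  choose lam hlam using fun x => cauchySeq_tendsto_of_complete (hc x)
  have hadd : ∀ x y, lam (x + y) = lam x + lam y := by
    intro x y
    have h1 : Tendsto (fun k => a (x + y) k - a x k - a y k) atTop
        (𝓝 (lam (x + y) - lam x - lam y)) := ((hlam (x + y)).sub (hlam x)).sub (hlam y)
    have h2 : Tendsto (fun k => a (x + y) k - a x k - a y k) atTop (𝓝 0) := by
      apply squeeze_zero_norm (a := fun k : ℕ => C / 2 ^ k)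
      · intro k
        have h := hl (2 ^ k • x) (2 ^ k • y)
        simp only [a]
        rw [smul_add, Real.norm_eq_abs, ← sub_div, ← sub_div, abs_div,
          abs_of_pos (by positivity : (0 : ℝ) < 2 ^ k)]
        exact div_le_div_of_nonneg_right h (by positivity)
      · have : Tendsto (fun k : ℕ => C * (1 / 2 : ℝ) ^ k) atTop (𝓝 (C * 0)) :=
          (tendsto_pow_atTop_nhds_zero_of_lt_one (by norm_num) (by norm_num)).const_mul C
        rw [mul_zero] at this
        refine this.congr fun k => ?_
        rw [one_div, inv_pow, div_eq_mul_inv]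
    have := tendsto_nhds_unique h1 h2
    linarith
  refine ⟨AddMonoidHom.mk' lam hadd, fun x => ?_⟩
  have h0 := dist_le_of_le_geometric_two_of_tendsto₀ (hstep x) (hlam x)
  simpa [a, Real.dist_eq] using h0

end Fermat.Agent.S17

end
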