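import Mathlib

/-! # S17 tool T1: the valuative criterion for integral dependence on an ideal

If `v (a) ≤ max_j v (b j)` for every valuation ring of an algebraically closed field that receives
`R`, then `a` satisfies an equation of integral dependence over the ideal `(b j)`.
The proof uses the Rees algebra `⨁ Iⁱ Xⁱ` mapped to `R[1/a]` by `X ↦ 1/a`. -/

set_option autoImplicit false

noncomputable section

namespace Fermat.Agent.S17

open Polynomial

namespace VC

/-- An element of the Rees algebra without constant term which becomes `1` under `X ↦ 1/a` gives an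
equation of integral dependence. -/
theorem of_aeval_eq_one {R : Type} [CommRing R] (a : R) (I : Ideal R) {S : Type} [CommRing S]
    [Algebra R S] [IsLocalization.Away a S] (u : S) (hau : algebraMap R S a * u = 1) (f : R[X])
    (hf : ∀ i, f.coeff i ∈ I ^ i) (hf0 : f.coeff 0 = 0) (h1 : Polynomial.aeval u f = 1) :
    ∃ (n : ℕ) (c : ℕ → R), 0 < n ∧ (∀ i, c i ∈ I ^ i) ∧
      a ^ n = ∑ i ∈ Finset.Icc 1 n, c i * a ^ (n - i) := by
  classical
  set n := f.natDegree + 1 with hn
  have hsum : algebraMap R S (∑ i ∈ Finset.range n, f.coeff i * a ^ (n - i))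
      = algebraMap R S (a ^ n) := by
    rw [Polynomial.aeval_eq_sum_range' (n := n) (by omega)] at h1
    have h2 := congrArg (fun z => z * (algebraMap R S a) ^ n) h1
    simp only [one_mul, Finset.sum_mul] at h2
    rw [map_sum, map_pow, ← h2]
    refine Finset.sum_congr rfl fun i hi => ?_
    have hi' : i ≤ n := (Finset.mem_range.mp hi).le
    have e : (algebraMap R S a) ^ n = (algebraMap R S a) ^ i * (algebraMap R S a) ^ (n - i) := by
      rw [← pow_add, Nat.add_sub_cancel' hi']
    rw [map_mul, map_pow, Algebra.smul_def, e, mul_assoc, ← mul_assoc (u ^ i), ← mul_pow,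
      mul_comm u, hau, one_pow, one_mul]
  obtain ⟨⟨_, m, rfl⟩, hm⟩ := (IsLocalization.eq_iff_exists (Submonoid.powers a) S).mp hsum
  simp only at hm
  refine ⟨m + n, fun i => f.coeff i, by omega, hf, ?_⟩
  rw [pow_add, ← hm, Finset.mul_sum]
  have e1 : ∑ i ∈ Finset.range n, a ^ m * (f.coeff i * a ^ (n - i))
      = ∑ i ∈ Finset.range (m + n + 1), f.coeff i * a ^ (m + n - i) := by
    rw [← Finset.sum_subset (s₁ := Finset.range n) (s₂ := Finset.range (m + n + 1))]
    · refine Finset.sum_congr rfl fun i hi => ?_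
      have hi' : i ≤ n := (Finset.mem_range.mp hi).le
      rw [Nat.add_sub_assoc hi', pow_add]; ring
    · intro i hi; simp only [Finset.mem_range] at hi ⊢; omega
    · intro i _ hi
      have : f.natDegree < i := by simp only [Finset.mem_range] at hi; omega
      rw [Polynomial.coeff_eq_zero_of_natDegree_lt this, zero_mul]
  have e2 : ∑ i ∈ Finset.Icc 1 (m + n), f.coeff i * a ^ (m + n - i)
      = ∑ i ∈ Finset.range (m + n + 1), f.coeff i * a ^ (m + n - i) := by
    refine Finset.sum_subset ?_ ?_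
    · intro i hi; simp only [Finset.mem_Icc, Finset.mem_range] at hi ⊢; omega
    · intro i hi1 hi
      have : i = 0 := by simp only [Finset.mem_Icc, Finset.mem_range] at hi hi1; omega
      rw [this, hf0, zero_mul]
  rw [e1, e2]

/-- For primes `𝔭 ≤ 𝔪` of a ring `A` there is a valuation ring of an algebraically closed field
receiving `A`, with kernel `𝔭` and centre containing `𝔪`. -/
theorem exists_valuationSubring_of_le {A : Type} [CommRing A] (𝔭 𝔪 : Ideal A) [𝔭.IsPrime]
    [𝔪.IsPrime] (hle : 𝔭 ≤ 𝔪) :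
    ∃ (Ω : Type) (_ : Field Ω) (_ : IsAlgClosed Ω) (V : ValuationSubring Ω) (g : A →+* Ω),
      (∀ x, g x ∈ V) ∧ (∀ x, g x = 0 ↔ x ∈ 𝔭) ∧ ∀ x ∈ 𝔪, V.valuation (g x) < 1 := by
  let L := FractionRing (A ⧸ 𝔭)
  let Ω := AlgebraicClosure L
  let g : A →+* Ω :=
    (algebraMap L Ω).comp ((algebraMap (A ⧸ 𝔭) L).comp (Ideal.Quotient.mk 𝔭))
  have hg0 : ∀ x : A, g x = 0 ↔ x ∈ 𝔭 := by
    intro x
    change algebraMap L Ω (algebraMap (A ⧸ 𝔭) L (Ideal.Quotient.mk 𝔭 x)) = 0 ↔ _
    rw [map_eq_zero, IsFractionRing.to_map_eq_zero_iff, Ideal.Quotient.eq_zero_iff_mem]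
  have hgu : ∀ y : 𝔪.primeCompl, IsUnit (g y) := by
    intro y
    refine IsUnit.mk0 _ fun h0 => y.2 (hle ((hg0 _).mp h0))
  let F : Localization.AtPrime 𝔪 →+* Ω := IsLocalization.lift (M := 𝔪.primeCompl) hgu
  have hF : ∀ x : A, F (algebraMap A (Localization.AtPrime 𝔪) x) = g x :=
    fun x => IsLocalization.lift_eq hgu x
  obtain ⟨V, hV, hloc⟩ := IsLocalRing.exists_factor_valuationRing F
  have hgV : ∀ x : A, g x ∈ V := fun x => hF x ▸ hV _
  refine ⟨Ω, inferInstance, inferInstance, V, g, hgV, hg0, ?_⟩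
  intro x hx
  have h1 : algebraMap A (Localization.AtPrime 𝔪) x ∈
      IsLocalRing.maximalIdeal (Localization.AtPrime 𝔪) :=
    (IsLocalization.AtPrime.to_map_mem_maximal_iff _ 𝔪 x).mpr hx
  have h2 : ¬ IsUnit (algebraMap A (Localization.AtPrime 𝔪) x) := h1
  have h3 : ¬ IsUnit ((F.codRestrict V.toSubring hV)
      (algebraMap A (Localization.AtPrime 𝔪) x)) := fun hu => h2 (hloc.map_nonunit _ hu)
  have h4 : (⟨g x, hgV x⟩ : V) ∈ IsLocalRing.maximalIdeal V := by
    intro hu
    apply h3
    convert hu using 1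
    exact Subtype.ext (hF x)
  exact (ValuationSubring.valuation_lt_one_iff V ⟨g x, hgV x⟩).mp h4

end VC

/-- T1. Valuative criterion for integral dependence over an ideal. -/
theorem exists_integral_equation_of_valuative {R : Type} [CommRing R] (a : R) {κ : Type} (b : κ → R)
    (h : ∀ (Ω : Type) [Field Ω] [IsAlgClosed Ω] (V : ValuationSubring Ω) (ψ : R →+* Ω),
      (∀ r, ψ r ∈ V) → ψ a ≠ 0 → ∃ j, V.valuation (ψ a) ≤ V.valuation (ψ (b j))) :
    ∃ (n : ℕ) (c : ℕ → R), 0 < n ∧ (∀ i, c i ∈ (Ideal.span (Set.range b)) ^ i) ∧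
      a ^ n = ∑ i ∈ Finset.Icc 1 n, c i * a ^ (n - i) := by
  classical
  set I := Ideal.span (Set.range b) with hI
  let u : Localization.Away a := IsLocalization.Away.invSelf a
  have hau : algebraMap R (Localization.Away a) a * u = 1 := IsLocalization.Away.mul_invSelf a
  let φ : ↥(reesAlgebra I) →+* Localization.Away a :=
    ((Polynomial.aeval u : R[X] →ₐ[R] Localization.Away a) : R[X] →+* Localization.Away a).comp
      ((reesAlgebra I).val : ↥(reesAlgebra I) →+* R[X])
  let ε : ↥(reesAlgebra I) →+* R :=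
    (Polynomial.constantCoeff).comp ((reesAlgebra I).val : ↥(reesAlgebra I) →+* R[X])
  by_cases htop : RingHom.ker ε ⊔ RingHom.ker φ = ⊤
  · have h1 : (1 : ↥(reesAlgebra I)) ∈ RingHom.ker ε ⊔ RingHom.ker φ := htop ▸ Submodule.mem_top
    obtain ⟨f, hf, k, hk, hfk⟩ := Submodule.mem_sup.mp h1
    refine VC.of_aeval_eq_one a I u hau f.1 ((mem_reesAlgebra_iff I f.1).mp f.2) ?_ ?_
    · exact hf
    · have h2 := congrArg φ hfk
      rw [map_add, (RingHom.mem_ker).mp hk, add_zero, map_one] at h2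
      exact h2
  · exfalso
    obtain ⟨𝔪, h𝔪, hle⟩ := Ideal.exists_le_maximal _ htop
    have hker : RingHom.ker φ ≤ 𝔪 := le_sup_right.trans hle
    have hr : RingHom.ker ε ≤ 𝔪 := le_sup_left.trans hle
    have := h𝔪.isPrime
    obtain ⟨𝔭, h𝔭, h𝔭𝔪⟩ := Ideal.exists_minimalPrimes_le hker
    have : 𝔭.IsPrime := h𝔭.1.1
    have hker𝔭 : RingHom.ker φ ≤ 𝔭 := h𝔭.1.2
    let a' : ↥(reesAlgebra I) := algebraMap R ↥(reesAlgebra I) a
    have hφalg : ∀ r : R, φ (algebraMap R ↥(reesAlgebra I) r)
        = algebraMap R (Localization.Away a) r := by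
      intro r
      change Polynomial.aeval u (Polynomial.C r) = _
      rw [Polynomial.aeval_C]
    have hφa' : φ a' = algebraMap R (Localization.Away a) a := hφalg a
    have ha' : a' ∉ 𝔭 := by
      intro hmem
      obtain ⟨y, hy, hxy⟩ := Ideal.exists_mul_mem_of_mem_minimalPrimes h𝔭 hmem
      apply hy
      rw [RingHom.mem_ker] at hxy ⊢
      rw [map_mul, hφa'] at hxy
      calc φ y = (u * algebraMap R (Localization.Away a) a) * φ y := by
            rw [mul_comm u, hau, one_mul]
        _ = 0 := by rw [mul_assoc, hxy, mul_zero]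
    obtain ⟨Ω, _, _, V, g, hgV, hg0, hlt⟩ := VC.exists_valuationSubring_of_le 𝔭 𝔪 h𝔭𝔪
    let ψ : R →+* Ω := g.comp (algebraMap R ↥(reesAlgebra I))
    obtain ⟨j, hj⟩ := h Ω V ψ (fun r => hgV _) (fun h0 => ha' ((hg0 _).mp h0))
    have hbj : b j ∈ I ^ 1 := by
      rw [pow_one]; exact Ideal.subset_span ⟨j, rfl⟩
    let β : ↥(reesAlgebra I) := ⟨Polynomial.monomial 1 (b j), reesAlgebra.monomial_mem.mpr hbj⟩
    have hβ𝔪 : β ∈ 𝔪 := by
      apply hr
      rw [RingHom.mem_ker]
      change Polynomial.constantCoeff (Polynomial.monomial 1 (b j)) = 0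
      simp [Polynomial.coeff_monomial]
    have hrel : a' * β - algebraMap R ↥(reesAlgebra I) (b j) ∈ 𝔭 := by
      apply hker𝔭
      rw [RingHom.mem_ker, map_sub, map_mul, hφa', hφalg]
      have : φ β = algebraMap R (Localization.Away a) (b j) * u := by
        change Polynomial.aeval u (Polynomial.monomial 1 (b j)) = _
        rw [Polynomial.aeval_monomial, pow_one]
      rw [this, mul_left_comm, hau, mul_one, sub_self]
    have hψ : ψ (b j) = ψ a * g β := by
      have := (hg0 _).mpr hrel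
      rw [map_sub, map_mul, sub_eq_zero] at this
      exact this.symm
    have hψa : V.valuation (ψ a) ≠ 0 := by
      rw [Ne, map_eq_zero]
      exact fun h0 => ha' ((hg0 _).mp h0)
    rw [hψ, map_mul] at hj
    have := mul_lt_mul_of_pos_left (hlt β hβ𝔪) (zero_lt_iff.mpr hψa)
    rw [mul_one] at this
    exact absurd hj (not_le.mpr this)

end Fermat.Agent.S17
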