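import Mathlib

/-! # S17 tools: definitions for the valuative criterion for heights -/

set_option autoImplicit false

noncomputable section

namespace Fermat.Agent.S17

open MvPolynomial

/-- The integral relation used below: `a` is integral over the ideal `(b)` "on the set `S`". -/
def IntegralOn {k σ κ : Type} [Field k] (S : Set (σ → k)) (a : MvPolynomial σ k)
    (b : κ → MvPolynomial σ k) : Prop :=
  ∃ (n : ℕ) (c : ℕ → MvPolynomial σ k), 0 < n ∧ (∀ i, c i ∈ (Ideal.span (Set.range b)) ^ i) ∧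
    ∀ s ∈ S, eval s a ^ n = ∑ i ∈ Finset.Icc 1 n, eval s (c i) * eval s a ^ (n - i)

/-- The valuative hypothesis: `y` runs through the `V`-points satisfying all polynomial identities
valid on `S`. -/
def ValuativeLE {k σ κ : Type} [Field k] (S : Set (σ → k)) (a : MvPolynomial σ k)
    (b : κ → MvPolynomial σ k) : Prop :=
  ∀ (Ω : Type) [Field Ω] [IsAlgClosed Ω] [Algebra k Ω] (V : ValuationSubring Ω),
    (∀ c : k, algebraMap k Ω c ∈ V) → ∀ y : σ → Ω, (∀ i, y i ∈ V) →
    (∀ G : MvPolynomial σ k, (∀ s ∈ S, eval s G = 0) → aeval y G = 0) →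
    aeval y a ≠ 0 → ∃ j, V.valuation (aeval y a) ≤ V.valuation (aeval y (b j))

/-- The normalisation hypothesis of T3. -/
def Normalizable {K σ ι κ : Type} [Field K] (S : Set (σ → K)) (a : ι → MvPolynomial σ K)
    (b : κ → MvPolynomial σ K) : Prop :=
  ∀ (v : AbsoluteValue K ℝ), ∀ y ∈ S, ∃ y' ∈ S, ∃ c : K, c ≠ 0 ∧ (∀ i, v (y' i) ≤ 1) ∧
    (∀ i, eval y (a i) = c * eval y' (a i)) ∧ (∀ j, eval y (b j) = c * eval y' (b j))

end Fermat.Agent.S17

end
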