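import Fermat.Agent.S17.Tools.VCPoly
import Fermat.Agent.S17.Tools.ICHeight

/-! # S17 tools, T4: the valuative criterion for heights -/

set_option autoImplicit false

noncomputable section

namespace Fermat.Agent.S17

open MvPolynomial Height

/-- T4 (file Tools/VCH.lean) = T2 + T3. -/
theorem logHeight_le_of_valuativeLE {K σ ι κ : Type} [Field K] [AdmissibleAbsValues K]
    [Finite σ] [Finite ι] [Finite κ] (S : Set (σ → K)) (a : ι → MvPolynomial σ K)
    (b : κ → MvPolynomial σ K) (hval : ∀ i, ValuativeLE S (a i) b) (hnorm : Normalizable S a b) :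
    ∃ C : ℝ, ∀ y ∈ S, (fun i => eval y (a i)) ≠ 0 →
      logHeight (fun i => eval y (a i)) ≤ logHeight (fun j => eval y (b j)) + C :=
  logHeight_le_of_integralOn S a b (fun i => integralOn_of_valuativeLE S (a i) b (hval i)) hnorm

end Fermat.Agent.S17

end
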