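import Fermat.Agent.S17.Tools.VCDefs

/-! # S17 tools, T2: from the valuative criterion over a ring to polynomials on a set
(the statement of T1 is taken as a hypothesis here) -/

set_option autoImplicit false

noncomputable section

namespace Fermat.Agent.S17

open MvPolynomial

/-- the ideal of polynomials vanishing on `S` -/
def VCPoly.vanIdeal {k σ : Type} [Field k] (S : Set (σ → k)) : Ideal (MvPolynomial σ k) where
  carrier := {G | ∀ s ∈ S, eval s G = 0}
  add_mem' := by
    intro a b ha hb s hs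
    rw [map_add, ha s hs, hb s hs, add_zero]
  zero_mem' := fun s _ => map_zero _
  smul_mem' := by
    intro c x hx s hs
    rw [smul_eq_mul, map_mul, hx s hs, mul_zero]

theorem VCPoly.mem_vanIdeal {k σ : Type} [Field k] {S : Set (σ → k)} {G : MvPolynomial σ k} :
    G ∈ VCPoly.vanIdeal S ↔ ∀ s ∈ S, eval s G = 0 := Iff.rfl

/-- the statement of T1 for a ring `R` -/
def VCPoly.T1Statement (R : Type) [CommRing R] : Prop :=
  ∀ (a : R) {κ : Type} (b : κ → R),
    (∀ (Ω : Type) [Field Ω] [IsAlgClosed Ω] (V : ValuationSubring Ω) (ψ : R →+* Ω),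
      (∀ r, ψ r ∈ V) → ψ a ≠ 0 → ∃ j, V.valuation (ψ a) ≤ V.valuation (ψ (b j))) →
    ∃ (n : ℕ) (c : ℕ → R), 0 < n ∧ (∀ i, c i ∈ (Ideal.span (Set.range b)) ^ i) ∧
      a ^ n = ∑ i ∈ Finset.Icc 1 n, c i * a ^ (n - i)

theorem VCPoly.integralOn_of_valuativeLE_of {k σ κ : Type} [Field k] (S : Set (σ → k))
    (hT1 : VCPoly.T1Statement (MvPolynomial σ k ⧸ VCPoly.vanIdeal S))
    (a : MvPolynomial σ k) (b : κ → MvPolynomial σ k) (h : ValuativeLE S a b) :
    IntegralOn S a b := by
  set I := VCPoly.vanIdeal S with hI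
  let π : MvPolynomial σ k →+* MvPolynomial σ k ⧸ I := Ideal.Quotient.mk I
  have hπ : Function.Surjective π := Ideal.Quotient.mk_surjective
  obtain ⟨n, c, hn, hc, hrel⟩ := hT1 (π a) (fun j => π (b j)) (by
    intro Ω _ _ V ψ hV ha
    letI : Algebra k Ω := (ψ.comp (π.comp C)).toAlgebra
    have key : ∀ G : MvPolynomial σ k, aeval (fun i => ψ (π (X i))) G = ψ (π G) := by
      intro G
      have : ((aeval (fun i => ψ (π (X i))) : MvPolynomial σ k →ₐ[k] Ω) : MvPolynomial σ k →+* Ω)
          = ψ.comp π := by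
        apply MvPolynomial.ringHom_ext
        · intro r
          simp only [RingHom.coe_coe, aeval_C, RingHom.comp_apply]
          rfl
        · intro i
          simp
      exact RingHom.congr_fun this G
    obtain ⟨j, hj⟩ := h Ω V (fun c => hV _) (fun i => ψ (π (X i))) (fun i => hV _)
      (fun G hG => by
        rw [key, show π G = 0 from Ideal.Quotient.eq_zero_iff_mem.mpr hG, map_zero])
      (by rw [key]; exact ha)
    exact ⟨j, by rw [key, key] at hj; exact hj⟩)
  have hmap : ∀ i, (Ideal.span (Set.range fun j => π (b j))) ^ i =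
      Ideal.map π ((Ideal.span (Set.range b)) ^ i) := by
    intro i
    rw [Ideal.map_pow, Ideal.map_span, ← Set.range_comp]
    rfl
  have hlift : ∀ i, ∃ c' ∈ (Ideal.span (Set.range b)) ^ i, π c' = c i := by
    intro i
    have := hc i
    rw [hmap i] at this
    exact (Ideal.mem_map_iff_of_surjective π hπ).mp this
  choose c' hc' hc'π using hlift
  refine ⟨n, c', hn, hc', fun s hs => ?_⟩
  have hmem : a ^ n - ∑ i ∈ Finset.Icc 1 n, c' i * a ^ (n - i) ∈ I := by
    rw [← Ideal.Quotient.eq_zero_iff_mem]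
    show π _ = 0
    rw [map_sub, map_pow, map_sum, hrel, sub_eq_zero]
    refine Finset.sum_congr rfl fun i _ => ?_
    rw [map_mul, map_pow, hc'π]
  have := hmem s hs
  rw [map_sub, map_pow, map_sum, sub_eq_zero] at this
  rw [this]
  refine Finset.sum_congr rfl fun i _ => ?_
  rw [map_mul, map_pow]

end Fermat.Agent.S17

end
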