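import Fermat.Agent.S17.Tools.VC
import Fermat.Agent.S17.Tools.VCPolyAux

/-! # S17 tools, T2: the valuative criterion for polynomials on a set -/

set_option autoImplicit false

noncomputable section

namespace Fermat.Agent.S17

open MvPolynomial

/-- T2 (file Tools/VCPoly.lean), from T1 with `R = MvPolynomial σ k ⧸ vanishing ideal of S`. -/
theorem integralOn_of_valuativeLE {k σ κ : Type} [Field k] (S : Set (σ → k))
    (a : MvPolynomial σ k) (b : κ → MvPolynomial σ k) (h : ValuativeLE S a b) :
    IntegralOn S a b :=
  VCPoly.integralOn_of_valuativeLE_of S
    (fun a _ b hab => exists_integral_equation_of_valuative a b hab) a b h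

end Fermat.Agent.S17

end
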